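/-
PROGRAM DS (S48), G1 layer LE — the residual engine, part 1 (helper117).

Algebra of an eigensystem of `ES1Data M p T Dm`:

* `Idx M p`, `gen`, `genR`, `evZ`, `evK` : the commuting integer matrices `t ℓ` (`ℓ ∤ M p` prime)
  and `d u` (`u ∈ (ℤ/M)ˣ`) of the datum, and evaluation of polynomials at them;
* `eigenLattice D lam` : the joint eigen-lattice in `R^r` for eigenvalues `lam : Idx M p → R`;
* `eigenLattice_ne_bot` : it is nonzero as soon as `lam` comes from a ring homomorphism on integer
  polynomials killing all relations between the matrices (`R` a domain of characteristic zero);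
* `ρR`, `ρEnd`, `eigenLattice_stable` : the Galois action base-changed along `ι : ℤ_[p] →+* R`;
* `exists_dvr_eigenSystem` : from a complex joint eigenvector with eigenvalues in the ring of
  algebraic integers and a residue map `φ` to a field of characteristic `p`, a complete discrete
  valuation ring `𝒪'` with an eigensystem `lam` of nonzero eigen-lattice lifting `φ ∘ (a, e)`.

Port of `S30/Eigen.lean`, `S30/EigenLattice.lean` and of the first half of `S29/Wiring.lean`
to the contract with diamonds `S48/G1/Contract.lean`.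
-/
import Mathlib
import Fermat.Agent.S48.G1.Contract
import Fermat.Agent.S30.Eigen
import Fermat.Agent.S29.Eigen
import Fermat.Agent.S29.CompleteDVR

set_option autoImplicit false
set_option linter.unusedVariables false
set_option linter.unusedSectionVars false
set_option linter.style.haveILetI false

open Polynomial
open scoped NumberField

namespace Fermat.Agent.S48.G1.ResEngine

open Fermat.Agent.S48.G1

variable {M p : ℕ} [NeZero M] [Fact p.Prime] {V : Type} [AddCommGroup V] [Module ℂ V]
  {T : ℕ → Module.End ℂ V} {Dm : (ZMod M)ˣ → Module.End ℂ V}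

/-- The index type of the operators entering the eigen-lattice: the primes `ℓ ∤ M`, `ℓ ≠ p`
(Hecke) and the units modulo `M` (diamonds). -/
abbrev Idx (M p : ℕ) : Type := {ℓ : ℕ // ℓ.Prime ∧ ¬ ℓ ∣ M ∧ ℓ ≠ p} ⊕ (ZMod M)ˣ

/-- The integer matrix attached to an index. -/
def gen (D : ES1Data M p T Dm) : Idx M p → Matrix (Fin D.r) (Fin D.r) ℤ :=
  Sum.elim (fun i => D.t i.1) (fun u => D.d u)

theorem gen_comm (D : ES1Data M p T Dm) (i j : Idx M p) :
    gen D i * gen D j = gen D j * gen D i := by
  rcases i with i | u <;> rcases j with j | u'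
  · exact (D.t_comm i.1 j.1).eq
  · exact (D.td_comm i.1 u').eq
  · exact (D.td_comm j.1 u).eq.symm
  · show D.d u * D.d u' = D.d u' * D.d u
    rw [← map_mul, ← map_mul, mul_comm]

/-- The matrix attached to an index, with entries cast to a commutative ring `R`. -/
def genR (D : ES1Data M p T Dm) (R : Type*) [CommRing R] (i : Idx M p) :
    Matrix (Fin D.r) (Fin D.r) R :=
  (gen D i).map (Int.castRingHom R)

theorem genR_comm (D : ES1Data M p T Dm) (R : Type*) [CommRing R] (i j : Idx M p) :
    genR D R i * genR D R j = genR D R j * genR D R i := by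
  have h := congrArg (fun X : Matrix (Fin D.r) (Fin D.r) ℤ => X.map (Int.castRingHom R))
    (gen_comm D i j)
  simp only [Matrix.map_mul] at h
  exact h

/-- Evaluation of integer polynomials at the integer matrices. -/
noncomputable def evZ (D : ES1Data M p T Dm) :
    MvPolynomial (Idx M p) ℤ →ₐ[ℤ] Matrix (Fin D.r) (Fin D.r) ℤ :=
  Fermat.Agent.S30.Eigen.evalComm (gen D) (gen_comm D)

/-- Evaluation of polynomials over a commutative ring `K` at the matrices. -/
noncomputable def evK (D : ES1Data M p T Dm) (K : Type*) [CommRing K] :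
    MvPolynomial (Idx M p) K →ₐ[K] Matrix (Fin D.r) (Fin D.r) K :=
  Fermat.Agent.S30.Eigen.evalComm (genR D K) (genR_comm D K)

theorem evZ_X (D : ES1Data M p T Dm) (i : Idx M p) :
    evZ D (MvPolynomial.X i) = gen D i := Fermat.Agent.S30.Eigen.evalComm_X _ _ i

theorem evK_X (D : ES1Data M p T Dm) (K : Type*) [CommRing K] (i : Idx M p) :
    evK D K (MvPolynomial.X i) = genR D K i := Fermat.Agent.S30.Eigen.evalComm_X _ _ i

/-- Base change of the evaluation. -/
theorem evK_map (D : ES1Data M p T Dm) (K : Type*) [CommRing K]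
    (P : MvPolynomial (Idx M p) ℤ) :
    evK D K (MvPolynomial.map (Int.castRingHom K) P) = (evZ D P).map (Int.castRingHom K) := by
  have h : ((evK D K).toRingHom.comp (MvPolynomial.map (Int.castRingHom K)) :
      MvPolynomial (Idx M p) ℤ →+* Matrix (Fin D.r) (Fin D.r) K) =
      ((Int.castRingHom K).mapMatrix.comp (evZ D).toRingHom) := by
    apply MvPolynomial.ringHom_ext
    · intro a
      rw [eq_intCast (MvPolynomial.C : ℤ →+* MvPolynomial (Idx M p) ℤ) a]
      simp
    · intro i
      simp [evK_X, evZ_X, genR]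
  exact congrArg (fun f => f P) h

/-- The joint eigen-lattice: vectors of `R^r` on which every matrix `gen i` acts through the
scalar `lam i`. -/
def eigenLattice (D : ES1Data M p T Dm) {R : Type*} [CommRing R] (lam : Idx M p → R) :
    Submodule R (Fin D.r → R) where
  carrier := {v | ∀ i : Idx M p, (genR D R i).mulVec v = lam i • v}
  add_mem' := by
    intro v w hv hw i
    rw [Matrix.mulVec_add, hv i, hw i, smul_add]
  zero_mem' := by
    intro i
    simp
  smul_mem' := by
    intro c v hv i
    rw [Matrix.mulVec_smul, hv i, smul_comm]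

theorem mem_eigenLattice (D : ES1Data M p T Dm) {R : Type*} [CommRing R] (lam : Idx M p → R)
    (v : Fin D.r → R) :
    v ∈ eigenLattice D lam ↔ ∀ i : Idx M p, (genR D R i).mulVec v = lam i • v := Iff.rfl

/-- **Engine.Eigen with diamonds**: the eigen-lattice of a character of the integer polynomial
ring which kills all relations between the matrices is nonzero. -/
theorem eigenLattice_ne_bot (D : ES1Data M p T Dm) {R : Type} [CommRing R] [IsDomain R]
    [CharZero R] (lamZ : MvPolynomial (Idx M p) ℤ →+* R)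
    (hker : ∀ P : MvPolynomial (Idx M p) ℤ, evZ D P = 0 → lamZ P = 0) :
    eigenLattice D (fun i => lamZ (MvPolynomial.X i)) ≠ ⊥ := by
  classical
  let K := FractionRing R
  have : CharZero K := charZero_of_injective_algebraMap (IsFractionRing.injective R K)
  -- the eigenvalues
  let lam : Idx M p → K := fun i => algebraMap R K (lamZ (MvPolynomial.X i))
  let lamZK : MvPolynomial (Idx M p) ℤ →+* K := (algebraMap R K).comp lamZ
  -- extension of the character to an additive functional on all integer matrices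
  obtain ⟨ψ, hψ⟩ : ∃ ψ : Matrix (Fin D.r) (Fin D.r) ℤ →+ K, ∀ P, ψ (evZ D P) = lamZK P := by
    let e : MvPolynomial (Idx M p) ℤ →+ Matrix (Fin D.r) (Fin D.r) ℤ :=
      (evZ D).toRingHom.toAddMonoidHom
    have hker' : e.ker ≤ (lamZK.toAddMonoidHom).ker := by
      intro P hP
      rw [AddMonoidHom.mem_ker] at hP ⊢
      have h0 := hker P hP
      show algebraMap R K (lamZ P) = 0
      rw [h0, map_zero]
    obtain ⟨g', hg'⟩ := (Module.Baer.of_divisible K).extension_property_addMonoidHom
      (QuotientAddGroup.kerLift e) (QuotientAddGroup.kerLift_injective e)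
      (QuotientAddGroup.lift e.ker lamZK.toAddMonoidHom hker')
    refine ⟨g', fun P => ?_⟩
    have h := DFunLike.congr_fun hg' (QuotientAddGroup.mk P)
    rw [AddMonoidHom.comp_apply, QuotientAddGroup.kerLift_mk, QuotientAddGroup.lift_mk] at h
    exact h
  -- the `K`-linear functional on matrices over `K`
  let Ψ : Matrix (Fin D.r) (Fin D.r) K →ₗ[K] K :=
    ∑ a, ∑ b, (ψ (Matrix.single a b (1 : ℤ))) • Matrix.entryLinearMap K K a b
  have hΨint : ∀ m : Matrix (Fin D.r) (Fin D.r) ℤ, Ψ (m.map (Int.castRingHom K)) = ψ m := by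
    intro m
    conv_rhs => rw [Matrix.matrix_eq_sum_single m]
    simp only [Ψ, LinearMap.sum_apply, LinearMap.smul_apply, Matrix.entryLinearMap_apply,
      Matrix.map_apply, map_sum]
    refine Finset.sum_congr rfl fun a _ => Finset.sum_congr rfl fun b _ => ?_
    have h1 : Matrix.single a b (m a b) = (m a b) • Matrix.single a b (1 : ℤ) := by
      rw [Matrix.smul_single]
      simp
    rw [h1, map_zsmul, zsmul_eq_mul, smul_eq_mul, mul_comm]
    simp
  have hΨZ : ∀ Q : MvPolynomial (Idx M p) ℤ,
      Ψ (evK D K (MvPolynomial.map (Int.castRingHom K) Q)) =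
        MvPolynomial.aeval lam (MvPolynomial.map (Int.castRingHom K) Q) := by
    intro Q
    rw [evK_map, hΨint, hψ]
    have h : lamZK = ((MvPolynomial.aeval lam : MvPolynomial (Idx M p) K →ₐ[K] K).toRingHom.comp
        (MvPolynomial.map (Int.castRingHom K))) := by
      apply MvPolynomial.ringHom_ext
      · intro a
        rw [eq_intCast (MvPolynomial.C : ℤ →+* MvPolynomial (Idx M p) ℤ) a]
        simp
      · intro i
        simp [lamZK, lam]
    exact congrArg (fun f => f Q) h
  have hΨ : ∀ P : MvPolynomial (Idx M p) K, Ψ (evK D K P) = MvPolynomial.aeval lam P := by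
    intro P
    induction P using MvPolynomial.induction_on' with
    | monomial u a =>
      have h1 : MvPolynomial.monomial u a =
          a • MvPolynomial.map (Int.castRingHom K) (MvPolynomial.monomial u (1 : ℤ)) := by
        rw [MvPolynomial.map_monomial, MvPolynomial.smul_monomial]
        simp
      rw [h1, map_smul, map_smul, map_smul, hΨZ]
    | add P Q hP hQ => rw [map_add, map_add, map_add, hP, hQ]
  -- the eigenvector over `K`
  let ρ : MvPolynomial (Idx M p) K →ₐ[K] Module.End K (Fin D.r → K) :=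
    (Matrix.toLinAlgEquiv' :
      Matrix (Fin D.r) (Fin D.r) K ≃ₐ[K] Module.End K (Fin D.r → K)).toAlgHom.comp (evK D K)
  obtain ⟨v, hv0, hv⟩ := Fermat.Agent.S30.Eigen.exists_eigenvector ρ (MvPolynomial.aeval lam) (by
    intro P hP
    have h0 : evK D K P = 0 := by
      apply (Matrix.toLinAlgEquiv' :
        Matrix (Fin D.r) (Fin D.r) K ≃ₐ[K] Module.End K (Fin D.r → K)).injective
      rw [map_zero]
      exact hP
    rw [← hΨ, h0, map_zero])
  have hv' : ∀ i : Idx M p, (genR D K i).mulVec v = lam i • v := by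
    intro i
    have := hv (MvPolynomial.X i)
    simpa [ρ, evK_X, Matrix.toLinAlgEquiv'_apply] using this
  -- clear denominators
  obtain ⟨b, hb⟩ := IsLocalization.exist_integer_multiples_of_finite (nonZeroDivisors R) v
  have hb' : ∀ i, ∃ x : R, algebraMap R K x = (b : R) • v i := fun i => hb i
  choose w hw using hb'
  have hb0 : algebraMap R K (b : R) ≠ 0 :=
    IsFractionRing.to_map_ne_zero_of_mem_nonZeroDivisors b.2
  have hw0 : w ≠ 0 := by
    intro h
    apply hv0
    funext i
    have h1 := hw i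
    rw [h, Pi.zero_apply, map_zero, Algebra.smul_def] at h1
    exact (mul_eq_zero.mp h1.symm).resolve_left hb0
  have hmem : w ∈ eigenLattice D (fun i => lamZ (MvPolynomial.X i)) := by
    intro i
    funext j
    apply IsFractionRing.injective R K
    have h1 := hv' i
    have h2 : (genR D R i).map (algebraMap R K) = genR D K i := by
      ext a c
      simp [genR, Matrix.map_apply]
    have h3 : (algebraMap R K) ∘ w = (b : R) • v := by
      funext i
      exact hw i
    rw [RingHom.map_mulVec, h2, h3, Matrix.mulVec_smul, h1]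
    simp only [Pi.smul_apply, smul_eq_mul, map_mul, lam]
    rw [hw j, Algebra.smul_def, Algebra.smul_def]
    ring
  intro hbot
  rw [hbot, Submodule.mem_bot] at hmem
  exact hw0 hmem

/-! ### The Galois action -/

/-- The Galois action of `D` base-changed along `ι : ℤ_[p] →+* R`, as matrices. -/
noncomputable def ρR (D : ES1Data M p T Dm) {R : Type*} [CommRing R] (ι : ℤ_[p] →+* R) :
    GQ1 →* Matrix (Fin D.r) (Fin D.r) R :=
  (ι.mapMatrix : Matrix (Fin D.r) (Fin D.r) ℤ_[p] →+* Matrix (Fin D.r) (Fin D.r) R).toMonoidHom.comp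
    D.ρ

/-- The Galois action of `D` base-changed along `ι`, as endomorphisms of `R^r`. -/
noncomputable def ρEnd (D : ES1Data M p T Dm) {R : Type*} [CommRing R] (ι : ℤ_[p] →+* R) :
    GQ1 →* Module.End R (Fin D.r → R) :=
  ((Matrix.toLinAlgEquiv' : Matrix (Fin D.r) (Fin D.r) R ≃ₐ[R] Module.End R (Fin D.r → R)) :
    Matrix (Fin D.r) (Fin D.r) R →* Module.End R (Fin D.r → R)).comp (ρR D ι)

theorem ρEnd_apply (D : ES1Data M p T Dm) {R : Type*} [CommRing R] (ι : ℤ_[p] →+* R)
    (g : GQ1) (v : Fin D.r → R) : ρEnd D ι g v = (ρR D ι g).mulVec v := by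
  simp [ρEnd, Matrix.toLinAlgEquiv'_apply]

theorem ρR_apply (D : ES1Data M p T Dm) {R : Type*} [CommRing R] (ι : ℤ_[p] →+* R)
    (g : GQ1) : ρR D ι g = (D.ρ g).map ι := rfl

/-- `ρ` commutes with the matrices `gen i` after base change. -/
theorem ρR_comm (D : ES1Data M p T Dm) {R : Type*} [CommRing R] (ι : ℤ_[p] →+* R)
    (g : GQ1) (i : Idx M p) : ρR D ι g * genR D R i = genR D R i * ρR D ι g := by
  have h : Commute (D.ρ g) ((gen D i).map (Int.castRingHom ℤ_[p])) := by
    rcases i with i | u
    · exact D.ρ_comm_t g i.1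
    · exact D.ρ_comm_d g u
  have h2 : ((gen D i).map (Int.castRingHom ℤ_[p])).map ι = genR D R i := by
    ext a b
    simp [genR, Matrix.map_apply]
  have h3 := congrArg (fun X : Matrix (Fin D.r) (Fin D.r) ℤ_[p] => X.map ι) h.eq
  simp only [Matrix.map_mul] at h3
  rw [h2] at h3
  exact h3

/-- The eigen-lattice is stable under the Galois action. -/
theorem eigenLattice_stable (D : ES1Data M p T Dm) {R : Type*} [CommRing R]
    (ι : ℤ_[p] →+* R) (lam : Idx M p → R) (g : GQ1)
    {v : Fin D.r → R} (hv : v ∈ eigenLattice D lam) :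
    (ρR D ι g).mulVec v ∈ eigenLattice D lam := by
  intro i
  rw [Matrix.mulVec_mulVec, ← ρR_comm D ι g i, ← Matrix.mulVec_mulVec, hv i,
    Matrix.mulVec_smul]

/-! ### From a complex eigenvector to an eigensystem over a complete DVR -/

/-- The eigenvalues of a complex joint eigenvector, indexed by `Idx M p`. -/
def lamA (a : ℕ → AlgInt) (e : (ZMod M)ˣ → AlgInt) : Idx M p → AlgInt :=
  Sum.elim (fun i => a i.1) e

/-- Polynomials in the matrices act on the image of a joint eigenvector through the
corresponding polynomial in the eigenvalues. -/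
theorem evZ_mulVec_eigen (D : ES1Data M p T Dm) (w : Fin D.r → ℂ) (lamC : Idx M p → AlgInt)
    (hw : ∀ i : Idx M p, (genR D ℂ i).mulVec w = ((lamC i : AlgInt) : ℂ) • w)
    (P : MvPolynomial (Idx M p) ℤ) :
    ((evZ D P).map (Int.castRingHom ℂ)).mulVec w
      = ((MvPolynomial.aeval lamC P : AlgInt) : ℂ) • w := by
  induction P using MvPolynomial.induction_on with
  | C n =>
    rw [eq_intCast (MvPolynomial.C : ℤ →+* MvPolynomial (Idx M p) ℤ) n, map_intCast, map_intCast]
    have h1 : (((n : ℤ) : Matrix (Fin D.r) (Fin D.r) ℤ)).map (Int.castRingHom ℂ) =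
        ((n : ℤ) : Matrix (Fin D.r) (Fin D.r) ℂ) := by
      have := map_intCast ((Int.castRingHom ℂ).mapMatrix :
        Matrix (Fin D.r) (Fin D.r) ℤ →+* Matrix (Fin D.r) (Fin D.r) ℂ) n
      exact this
    rw [h1, Matrix.intCast_mulVec]
    simp
  | add Q₁ Q₂ h₁ h₂ =>
    rw [map_add, map_add, Matrix.map_add, Matrix.add_mulVec, h₁, h₂, Subalgebra.coe_add, add_smul]
    intro x y; simp
  | mul_X Q i h =>
    rw [map_mul, map_mul, evZ_X, Matrix.map_mul, ← Matrix.mulVec_mulVec]
    have hi : ((gen D i).map (Int.castRingHom ℂ)).mulVec w = ((lamC i : AlgInt) : ℂ) • w := hw i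
    rw [hi, Matrix.mulVec_smul, h, MvPolynomial.aeval_X, Subalgebra.coe_mul, smul_smul, mul_comm]

/-- **The eigensystem over a complete DVR.**  A complex joint eigenvector `v ≠ 0` of the operators
of an `ES1Data` with eigenvalues `a ℓ`, `e u` in the ring of algebraic integers, and a ring
homomorphism `φ` from the algebraic integers to a field of characteristic `p`, give a complete
discrete valuation ring `𝒪'` of characteristic zero and residue characteristic `p`, an embedding
`j` of its residue field in `k`, and eigenvalues `lam : Idx M p → 𝒪'` reducing to `φ ∘ a`,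
`φ ∘ e`, multiplicative in the diamond variable, trivial at `-1`, with nonzero eigen-lattice. -/
theorem exists_dvr_eigenSystem (D : ES1Data M p T Dm) (v : V) (hv : v ≠ 0)
    (a : ℕ → AlgInt) (e : (ZMod M)ˣ → AlgInt)
    (hT : ∀ ℓ : ℕ, ℓ.Prime → ¬ ℓ ∣ M → ℓ ≠ p → T ℓ v = ((a ℓ : AlgInt) : ℂ) • v)
    (hD : ∀ u : (ZMod M)ˣ, Dm u v = ((e u : AlgInt) : ℂ) • v)
    {k : Type} [Field k] [CharP k p] (φ : AlgInt →+* k) :
    ∃ (𝒪' : Type) (_ : CommRing 𝒪') (_ : IsDomain 𝒪') (_ : IsDiscreteValuationRing 𝒪')
      (_ : IsAdicComplete (IsLocalRing.maximalIdeal 𝒪') 𝒪') (_ : CharZero 𝒪'),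
      (p : 𝒪') ∈ IsLocalRing.maximalIdeal 𝒪' ∧
      ∃ (lam : Idx M p → 𝒪') (j : IsLocalRing.ResidueField 𝒪' →+* k),
        eigenLattice D lam ≠ ⊥ ∧
        (∀ i : {ℓ : ℕ // ℓ.Prime ∧ ¬ ℓ ∣ M ∧ ℓ ≠ p},
          j (IsLocalRing.residue 𝒪' (lam (Sum.inl i))) = φ (a i.1)) ∧
        (∀ u : (ZMod M)ˣ, j (IsLocalRing.residue 𝒪' (lam (Sum.inr u))) = φ (e u)) ∧
        (∀ u u' : (ZMod M)ˣ, lam (Sum.inr (u * u')) = lam (Sum.inr u) * lam (Sum.inr u')) ∧
        lam (Sum.inr 1) = 1 ∧ lam (Sum.inr (-1)) = 1 := by
  classical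
  obtain ⟨Φ, hΦinj, hΦT, hΦD⟩ := D.occ
  -- the image of the eigenvector
  have hw0 : Φ v ≠ 0 := fun h => hv (hΦinj (by rw [h, map_zero]))
  have hw : ∀ i : Idx M p,
      (genR D ℂ i).mulVec (Φ v) = ((lamA a e i : AlgInt) : ℂ) • Φ v := by
    rintro (i | u)
    · have h := hΦT i.1 i.2.1 i.2.2.1 i.2.2.2 v
      rw [hT i.1 i.2.1 i.2.2.1 i.2.2.2, map_smul] at h
      exact h.symm
    · have h := hΦD u v
      rw [hD u, map_smul] at h
      exact h.symm
  -- relations between the matrices hold between the eigenvalues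
  have hkerA : ∀ P : MvPolynomial (Idx M p) ℤ, evZ D P = 0 →
      MvPolynomial.aeval (lamA a e) P = (0 : AlgInt) := by
    intro P hP
    have h := evZ_mulVec_eigen D (Φ v) (lamA a e) hw P
    rw [hP, Matrix.map_zero _ (map_zero _), Matrix.zero_mulVec] at h
    have h2 : ((MvPolynomial.aeval (lamA a e) P : AlgInt) : ℂ) = 0 := by
      rcases smul_eq_zero.mp h.symm with h3 | h3
      · exact h3
      · exact absurd h3 hw0
    exact Subtype.ext h2
  -- the finite `ℤ`-algebra generated by the matrices, as a quotient of the polynomial ring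
  let I : Ideal (MvPolynomial (Idx M p) ℤ) := RingHom.ker (evZ D).toRingHom
  have hfin : Module.Finite ℤ (MvPolynomial (Idx M p) ℤ ⧸ I) := by
    have hinj : Function.Injective (RingHom.kerLift (evZ D).toRingHom) :=
      RingHom.kerLift_injective _
    exact Module.Finite.of_injective
      (RingHom.kerLift (evZ D).toRingHom).toIntAlgHom.toLinearMap hinj
  let χ₀ : MvPolynomial (Idx M p) ℤ ⧸ I →+* AlgInt :=
    Ideal.Quotient.lift I (MvPolynomial.aeval (lamA a e) : MvPolynomial (Idx M p) ℤ →ₐ[ℤ] AlgInt).toRingHom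
      (fun P hP => hkerA P (RingHom.mem_ker.mp hP))
  obtain ⟨E, iE1, iE2, χE, incl, hincl⟩ := Fermat.Agent.S29.Eigen.exists_numberField_factor χ₀
  obtain ⟨𝒪', i1, i2, i3, i4, i5, i6, hp𝒪', ι₀, j, hj⟩ :=
    Fermat.Agent.S29.CompleteDVR.exists_complete_dvr p E (φ.comp incl)
  let lamZ : MvPolynomial (Idx M p) ℤ →+* 𝒪' := ι₀.comp (χE.comp (Ideal.Quotient.mk I))
  have hker : ∀ P : MvPolynomial (Idx M p) ℤ, evZ D P = 0 → lamZ P = 0 := by
    intro P hP
    have h1 : Ideal.Quotient.mk I P = 0 :=
      Ideal.Quotient.eq_zero_iff_mem.mpr (RingHom.mem_ker.mpr hP)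
    show ι₀ (χE (Ideal.Quotient.mk I P)) = 0
    rw [h1, map_zero, map_zero]
  have hres : ∀ i : Idx M p,
      j (IsLocalRing.residue 𝒪' (lamZ (MvPolynomial.X i))) = φ (lamA a e i) := by
    intro i
    show j (IsLocalRing.residue 𝒪' (ι₀ (χE (Ideal.Quotient.mk I (MvPolynomial.X i))))) = _
    rw [hj, RingHom.comp_apply, hincl]
    show φ (MvPolynomial.aeval (lamA a e) (MvPolynomial.X i)) = _
    rw [MvPolynomial.aeval_X]
  refine ⟨𝒪', i1, i2, i3, i4, i6, hp𝒪', fun i => lamZ (MvPolynomial.X i), j,
    eigenLattice_ne_bot D lamZ hker, fun i => hres (Sum.inl i), fun u => hres (Sum.inr u), ?_, ?_, ?_⟩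
  · intro u u'
    have h := hker (MvPolynomial.X (Sum.inr (u * u'))
      - MvPolynomial.X (Sum.inr u) * MvPolynomial.X (Sum.inr u')) (by
        rw [map_sub, map_mul, evZ_X, evZ_X, evZ_X]
        show D.d (u * u') - D.d u * D.d u' = 0
        rw [map_mul, sub_self])
    rw [map_sub, map_mul, sub_eq_zero] at h
    exact h
  · have h := hker (MvPolynomial.X (Sum.inr 1) - 1) (by
        rw [map_sub, map_one, evZ_X]
        show D.d 1 - 1 = 0
        rw [map_one, sub_self])
    rw [map_sub, map_one, sub_eq_zero] at h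
    exact h
  · have h := hker (MvPolynomial.X (Sum.inr (-1)) - 1) (by
        rw [map_sub, map_one, evZ_X]
        show D.d (-1) - 1 = 0
        rw [D.d_neg_one, sub_self])
    rw [map_sub, map_one, sub_eq_zero] at h
    exact h

end Fermat.Agent.S48.G1.ResEngine
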