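/-
PROGRAM DS (S48), G1 layer LE — the residual engine, part 3 (helper117).

`residualExit : ResidualExit` — the exit of the residual engine fixed in `S48/G1/Contract.lean`:
from `ES1Data M p T Dm`, a joint eigenvector `v ≠ 0` with eigenvalues `a ℓ`, `e u` in the ring of
algebraic integers and a ring homomorphism `φ : 𝔸 → k` (`char k = p`), a representation
`ρbar : G_ℚ → GL₂(k)` of finite level, unramified outside `M p`, with
`charpoly ρbar(Frob_ℓ) = X² - φ(a ℓ) X + ℓ φ(e ℓ)`.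

Assembly: `EigenSys.exists_dvr_eigenSystem` (complete DVR `𝒪'` + eigensystem `lam` with nonzero
eigen-lattice), `QuadRel.exists_quadratic_relation` (quadratic relation with determinant
`epsD = cyclo_p · (lam ∘ cycMod M)`), the generic `S30.ConjClifford.exists_rank_two_rep`
(complex conjugation has determinant `-1` because `d (-1) = 1`), then reduction modulo the
maximal ideal and base change along the embedding of the residue field into `k`.
-/
import Mathlib
import Fermat.Agent.S48.G1.ResEngine.QuadRel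
import Fermat.Agent.S30.ConjCliffordLattice
import Fermat.Agent.Lib.FrobeniusDensity
import Fermat.Agent.Lib.CycloChar

set_option autoImplicit false
set_option linter.unusedVariables false
set_option linter.unusedSectionVars false

open Polynomial

namespace Fermat.Agent.S48.G1.ResEngine

open Fermat.Agent.S48.G1 IsLocalRing

local notation "Qb" => AlgebraicClosure ℚ

/-- A vector of `R^r` with all coordinates in an ideal `I` lies in `I • ⊤`. -/
theorem mem_smul_top_of_forall_mem' {R : Type*} [CommRing R] {r : ℕ} (I : Ideal R)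
    (v : Fin r → R) (hv : ∀ i, v i ∈ I) : v ∈ I • (⊤ : Submodule R (Fin r → R)) := by
  classical
  have h : v = ∑ i, v i • (Pi.single i (1 : R) : Fin r → R) := by
    ext j
    simp [Finset.sum_apply, Pi.single_apply]
  rw [h]
  exact Submodule.sum_mem _ fun i _ => Submodule.smul_mem_smul (hv i) Submodule.mem_top

/-- The coordinates of an element of `I • ⊤` in a basis lie in `I`. -/
theorem repr_mem_of_mem_smul_top {R : Type*} [CommRing R] {W : Type*} [AddCommGroup W]
    [Module R W] {n : Type*} (b : Module.Basis n R W) (I : Ideal R) {x : W}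
    (hx : x ∈ I • (⊤ : Submodule R W)) (i : n) : b.repr x i ∈ I := by
  refine Submodule.smul_induction_on hx (fun r hr m _ => ?_) (fun x y hx hy => ?_)
  · rw [map_smul, Finsupp.smul_apply, smul_eq_mul]
    exact Ideal.mul_mem_right _ _ hr
  · rw [map_add, Finsupp.add_apply]
    exact Ideal.add_mem _ hx hy

section Frob

variable {M p : ℕ} [NeZero M] [Fact p.Prime] {V : Type} [AddCommGroup V] [Module ℂ V]
  {T : ℕ → Module.End ℂ V} {Dm : (ZMod M)ˣ → Module.End ℂ V}

/-- The Eichler–Shimura relation with diamond on the eigen-lattice, at a Frobenius element. -/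
theorem frobenius_relation (D : ES1Data M p T Dm) {R : Type*} [CommRing R] (ι : ℤ_[p] →+* R)
    (lam : Idx M p → R) {ℓ : ℕ} (hℓ : ℓ.Prime) (hℓM : ¬ ℓ ∣ M) (hℓp : ℓ ≠ p)
    (u : (ZMod M)ˣ) (hu : (u : ZMod M) = (ℓ : ZMod M))
    (A : ValuationSubring Qb) (hA : A.LiesOverPrime ℓ) (s : GQ1) (hs : A.IsFrobeniusAt s ℓ)
    (m : Fin D.r → R) (hm : m ∈ eigenLattice D lam) :
    (ρR D ι s).mulVec ((ρR D ι s).mulVec m)
      - lam (Sum.inl ⟨ℓ, hℓ, hℓM, hℓp⟩) • (ρR D ι s).mulVec m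
      + ((ℓ : R) * lam (Sum.inr u)) • m = 0 := by
  have hes := D.es ℓ hℓ hℓM hℓp u hu A hA s hs
  obtain ⟨iℓ, hiℓ⟩ : ∃ iℓ : Idx M p, iℓ = Sum.inl ⟨ℓ, hℓ, hℓM, hℓp⟩ := ⟨_, rfl⟩
  rw [← hiℓ]
  have hesR : ρR D ι s * ρR D ι s - genR D R iℓ * ρR D ι s
      + (ℓ : R) • genR D R (Sum.inr u) = 0 := by
    have h := congrArg (ι.mapMatrix : Matrix (Fin D.r) (Fin D.r) ℤ_[p] →+* _) hes
    rw [map_add, map_sub, map_mul, map_mul, map_zero] at h
    have h2 : ι.mapMatrix ((D.t ℓ).map (Int.castRingHom ℤ_[p])) = genR D R iℓ := by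
      rw [hiℓ]
      ext i j
      simp [genR, gen, Matrix.map_apply]
    have h3 : ι.mapMatrix (D.ρ s) = ρR D ι s := rfl
    have h4 : ι.mapMatrix ((ℓ : ℤ_[p]) • (D.d u).map (Int.castRingHom ℤ_[p]))
        = (ℓ : R) • genR D R (Sum.inr u) := by
      ext i j
      simp [genR, gen, Matrix.map_apply]
    rw [h2, h3, h4] at h
    exact h
  have hm' : (ρR D ι s).mulVec m ∈ eigenLattice D lam := eigenLattice_stable D ι lam s hm
  have heig : (genR D R iℓ).mulVec ((ρR D ι s).mulVec m) = lam iℓ • (ρR D ι s).mulVec m :=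
    hm' iℓ
  have heig2 : (genR D R (Sum.inr u)).mulVec m = lam (Sum.inr u) • m := hm (Sum.inr u)
  have h := congrArg (fun N : Matrix (Fin D.r) (Fin D.r) R => N.mulVec m) hesR
  simp only [Matrix.add_mulVec, Matrix.sub_mulVec, Matrix.zero_mulVec, ← Matrix.mulVec_mulVec,
    Matrix.smul_mulVec] at h
  rw [heig, heig2, smul_smul] at h
  exact h

end Frob

/-- **The residual engine of G1** (exit `ResidualExit` of `S48/G1/Contract.lean`). -/
theorem residualExit : ResidualExit := by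
  intro M p _ _ hp2 V _ _ T Dm hDne v hv a e hT hD k _ _ φ
  classical
  obtain ⟨D⟩ := hDne
  obtain ⟨𝒪', i1, i2, i3, i4, i5, hp𝒪', lam, j, hN, hja, hje, hmul, hone, hneg⟩ :=
    exists_dvr_eigenSystem D v hv a e hT hD φ
  -- the map `ℤ_[p] → 𝒪'`
  obtain ⟨ι, -⟩ : ∃ ι : ℤ_[p] →+* 𝒪', ι = ι :=
    ⟨Fermat.Agent.Lib.CycloChar.padicHom p (maximalIdeal 𝒪') hp𝒪', rfl⟩
  -- the diamond character
  obtain ⟨ψ, hψ⟩ : ∃ ψ : (ZMod M)ˣ →* 𝒪'ˣ, ∀ u : (ZMod M)ˣ, ((ψ u : 𝒪'ˣ) : 𝒪') = lam (Sum.inr u) :=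
    ⟨MonoidHom.toHomUnits
      { toFun := fun u => lam (Sum.inr u), map_one' := hone, map_mul' := hmul }, fun u => rfl⟩
  have hψneg : ψ (-1) = 1 := Units.ext (by rw [hψ, hneg, Units.val_one])
  -- the quadratic relations
  have hdens : Fermat.Agent.S30.QuadRel.DensityStatement :=
    fun L _ S g => Fermat.Agent.Lib.FrobeniusDensity.exists_frobenius_pow_eq L S g
  have hst : ∀ g : GQ1, ∀ m ∈ eigenLattice D lam, ρEnd D ι g m ∈ eigenLattice D lam := by
    intro g m hm
    rw [ρEnd_apply]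
    exact eigenLattice_stable D ι lam g hm
  have hrel : ∀ g : GQ1, ∃ c : 𝒪', ∀ m ∈ eigenLattice D lam,
      ρEnd D ι g (ρEnd D ι g m) - c • ρEnd D ι g m
        + ((epsD M p ι ψ g : 𝒪'ˣ) : 𝒪') • m = 0 := by
    intro g
    obtain ⟨c, hc⟩ := exists_quadratic_relation hdens D 𝒪' hp𝒪' ι lam ψ hψ g
    refine ⟨c, fun m hm => ?_⟩
    rw [ρEnd_apply, ρEnd_apply]
    exact hc m hm
  -- the rank-two representation over `𝒪'`
  obtain ⟨W, iW1, iW2, iW3, iW4, ρW, hfin, hchar, hcong⟩ :=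
    Fermat.Agent.S30.ConjClifford.exists_rank_two_rep (two_ne_zero : (2 : 𝒪') ≠ 0) (ρEnd D ι)
      (eigenLattice D lam) hN hst (epsD M p ι ψ) hrel complexConjugation
      complexConjugation_mul_self (epsD_complexConjugation M p ι ψ hψneg)
  -- matrices in a basis, reduced to `k`
  obtain ⟨bW⟩ : Nonempty (Module.Basis (Fin 2) 𝒪' W) := ⟨Module.finBasisOfFinrankEq 𝒪' W hfin⟩
  obtain ⟨f, hf⟩ : ∃ f : 𝒪' →+* k, ∀ x, f x = j (residue 𝒪' x) :=
    ⟨j.comp (residue 𝒪'), fun x => rfl⟩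
  have hf0 : ∀ x ∈ maximalIdeal 𝒪', f x = 0 := by
    intro x hx
    rw [hf, (residue_eq_zero_iff x).mpr hx, map_zero]
  obtain ⟨ρM, hρM⟩ : ∃ ρM : GQ1 →* Matrix (Fin 2) (Fin 2) k,
      ∀ σ, ρM σ = (LinearMap.toMatrix bW bW (ρW σ)).map f :=
    ⟨(f.mapMatrix : Matrix (Fin 2) (Fin 2) 𝒪' →+* Matrix (Fin 2) (Fin 2) k).toMonoidHom.comp
      (((LinearMap.toMatrixAlgEquiv bW : Module.End 𝒪' W ≃ₐ[𝒪'] Matrix (Fin 2) (Fin 2) 𝒪') :
        Module.End 𝒪' W →* Matrix (Fin 2) (Fin 2) 𝒪').comp ρW), fun σ => rfl⟩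
  have hρM1 : ∀ σ : GQ1, ρW σ = 1 → ρM σ = 1 := by
    intro σ h
    rw [← map_one ρW] at h
    have h1 : ρM σ = ρM 1 := by rw [hρM, hρM, h]
    rw [h1, map_one]
  -- congruence kernels
  have hρMcong : ∀ σ : GQ1, (∀ w : W, ρW σ w - w ∈ maximalIdeal 𝒪' • (⊤ : Submodule 𝒪' W)) →
      ρM σ = 1 := by
    intro σ h
    rw [hρM]
    ext a b
    rw [Matrix.map_apply, LinearMap.toMatrix_apply, Matrix.one_apply]
    have h1 := repr_mem_of_mem_smul_top bW (maximalIdeal 𝒪') (h (bW b)) a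
    rw [map_sub, Finsupp.sub_apply, Module.Basis.repr_self, Finsupp.single_apply] at h1
    have h2 := hf0 _ h1
    rw [map_sub, sub_eq_zero] at h2
    rw [h2]
    by_cases hab : a = b
    · rw [if_pos hab, if_pos hab.symm, map_one]
    · rw [if_neg hab, if_neg (Ne.symm hab), map_zero]
  refine ⟨ρM.toHomUnits, ?_, ?_⟩
  · -- finite level
    obtain ⟨L1, hL1fin, hL1⟩ := D.cont 1
    have := hL1fin
    have := Fermat.Agent.S30.CycloChar.finiteDimensional_cycloField p 1
    have := Fermat.Agent.Lib.CycMod.finiteDimensional_cycloField M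
    refine ⟨L1 ⊔ Fermat.Agent.S30.CycloChar.cycloField p 1 ⊔ Fermat.Agent.Lib.CycMod.cycloField M,
      inferInstance, fun σ hσ => ?_⟩
    apply Units.ext
    rw [MonoidHom.coe_toHomUnits, Units.val_one]
    apply hρMcong
    have hσ1 : ∀ x ∈ L1, σ x = x := fun x hx =>
      hσ x ((le_sup_of_le_left le_sup_left : L1 ≤ _) hx)
    have hσ2 : ∀ x ∈ Fermat.Agent.S30.CycloChar.cycloField p 1, σ x = x := fun x hx =>
      hσ x ((le_sup_of_le_left le_sup_right :
        Fermat.Agent.S30.CycloChar.cycloField p 1 ≤ _) hx)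
    have hσ3 : ∀ x ∈ Fermat.Agent.Lib.CycMod.cycloField M, σ x = x := fun x hx =>
      hσ x ((le_sup_right : Fermat.Agent.Lib.CycMod.cycloField M ≤ _) hx)
    have hspan : Ideal.span {(p : 𝒪') ^ 1} ≤ maximalIdeal 𝒪' := by
      rw [Ideal.span_singleton_le_iff_mem, pow_one]
      exact hp𝒪'
    have hιp : ∀ x : ℤ_[p], x ∈ Ideal.span {(p : ℤ_[p]) ^ 1} → ι x ∈ maximalIdeal 𝒪' := by
      intro x hx
      obtain ⟨y, rfl⟩ := Ideal.mem_span_singleton'.mp hx
      rw [map_mul, map_pow, map_natCast, pow_one]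
      exact Ideal.mul_mem_left _ _ hp𝒪'
    refine hcong σ (maximalIdeal 𝒪') ?_ ?_
    · intro m
      rw [ρEnd_apply]
      apply mem_smul_top_of_forall_mem'
      intro i
      have hentry : ((ρR D ι σ).mulVec m - m) i = ∑ l, ι ((D.ρ σ - 1) i l) * m l := by
        rw [Pi.sub_apply, Matrix.mulVec, dotProduct]
        have : m i = ∑ l, ι ((1 : Matrix (Fin D.r) (Fin D.r) ℤ_[p]) i l) * m l := by
          simp [Matrix.one_apply]
        rw [this, ← Finset.sum_sub_distrib]
        refine Finset.sum_congr rfl fun l _ => ?_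
        rw [ρR_apply, Matrix.map_apply, Matrix.sub_apply, map_sub, sub_mul]
      rw [hentry]
      exact Ideal.sum_mem _ fun l _ => Ideal.mul_mem_right _ _ (hιp _ (hL1 σ hσ1 i l))
    · exact hspan (epsD_sub_one_mem M p ι ψ 1 σ hσ2 hσ3)
  · intro ℓ hℓ hℓM hℓp u hu P hP
    refine ⟨fun σ hσ => ?_, fun σ hσ => ?_⟩
    · -- unramified
      apply Units.ext
      rw [MonoidHom.coe_toHomUnits, Units.val_one]
      apply hρM1
      have h1 : D.ρ σ = 1 := D.unr ℓ hℓ hℓM hℓp P hP σ hσ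
      have h2 : epsD M p ι ψ σ = 1 := epsD_inertia M p ι ψ hℓ hℓM hℓp P hP σ hσ
      have hw : ∀ w : W, ρW σ w - w ∈ (⊥ : Ideal 𝒪') • (⊤ : Submodule 𝒪' W) := by
        refine hcong σ (⊥ : Ideal 𝒪') ?_ ?_
        · intro m
          have h0 : ρEnd D ι σ m - m = 0 := by
            rw [ρEnd_apply, ρR_apply, h1, Matrix.map_one _ (map_zero ι) (map_one ι),
              Matrix.one_mulVec, sub_self]
          rw [h0]
          exact Submodule.zero_mem _
        · rw [h2, Units.val_one, sub_self]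
          exact Submodule.zero_mem _
      apply LinearMap.ext
      intro w
      have := hw w
      rw [Submodule.bot_smul, Submodule.mem_bot, sub_eq_zero] at this
      simpa using this
    · -- Frobenius characteristic polynomial
      have hu' : u = ZMod.unitOfCoprime ℓ ((Nat.Prime.coprime_iff_not_dvd hℓ).mpr hℓM) := by
        apply Units.ext
        rw [hu, ZMod.coe_unitOfCoprime]
      have hεσ : ((epsD M p ι ψ σ : 𝒪'ˣ) : 𝒪') = (ℓ : 𝒪') * lam (Sum.inr u) := by
        rw [epsD_frobenius M p ι ψ hℓ hℓM hℓp P hP σ hσ, ← hu', hψ]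
      have key := hchar σ (lam (Sum.inl ⟨ℓ, hℓ, hℓM, hℓp⟩)) (by
        intro m hm
        rw [hεσ, ρEnd_apply, ρEnd_apply]
        exact frobenius_relation D ι lam hℓ hℓM hℓp u hu P hP σ hσ m hm)
      rw [hεσ] at key
      show (ρM σ).charpoly = _
      rw [hρM, Matrix.charpoly_map, LinearMap.charpoly_toMatrix, key]
      rw [Polynomial.map_add, Polynomial.map_sub, Polynomial.map_mul, Polynomial.map_pow,
        Polynomial.map_X, Polynomial.map_C, Polynomial.map_C, map_mul, map_natCast,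
        hf (lam (Sum.inl ⟨ℓ, hℓ, hℓM, hℓp⟩)), hf (lam (Sum.inr u)),
        hja ⟨ℓ, hℓ, hℓM, hℓp⟩, hje u]

end Fermat.Agent.S48.G1.ResEngine
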