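/-
PROGRAM DS (S48), G1 layer LE — the residual engine, part 2 (helper117).

* `epsD` : the determinant character `cyclo_p · (ψ ∘ cycMod M)` of `G_ℚ` with values in `Oˣ`,
  for `ι : ℤ_[p] →+* O` and a character `ψ` of `(ℤ/M)ˣ`; its values at Frobenius elements, on
  inertia, at complex conjugation, and its continuity;
* `exists_approx`, `exists_quadratic_relation` : every `g : G_ℚ` satisfies a quadratic relation
  `ρ(g)² - a ρ(g) + epsD(g) = 0` on the eigen-lattice of an eigensystem `lam` of `ES1Data` whose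
  diamond part is `ψ` (Frobenius density + `D.es` with diamond + Lucas + `D.cont` + limit).

Port of `S30/QuadRel.lean` to the contract with diamonds.
-/
import Mathlib
import Fermat.Agent.S48.G1.ResEngine.EigenSys
import Fermat.Agent.S30.QuadRel
import Fermat.Agent.Lib.CycMod

set_option autoImplicit false
set_option linter.unusedVariables false
set_option linter.unusedSectionVars false

namespace Fermat.Agent.S48.G1.ResEngine

open Fermat.Agent.S48.G1 IsLocalRing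
open Fermat.Agent.S30 (CycloChar.eps CycloChar.epsO)
open Fermat.Agent.Lib.CycMod (cycMod)

local notation "Qb" => AlgebraicClosure ℚ

/-! ### The determinant character -/

section DetChar

variable (M p : ℕ) [NeZero M] [Fact p.Prime] {O : Type*} [CommRing O] (ι : ℤ_[p] →+* O)
  (ψ : (ZMod M)ˣ →* Oˣ)

/-- The determinant character `cyclo_p · (ψ ∘ cycMod M)`. -/
noncomputable def epsD : GQ1 →* Oˣ :=
  Fermat.Agent.S30.CycloChar.epsO p ι * ψ.comp (cycMod M)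

theorem epsD_apply (g : GQ1) :
    ((epsD M p ι ψ g : Oˣ) : O)
      = ι ((Fermat.Agent.S30.CycloChar.eps p g : ℤ_[p]ˣ) : ℤ_[p]) * ((ψ (cycMod M g) : Oˣ) : O) :=
  rfl

theorem epsD_frobenius {ℓ : ℕ} (hℓ : ℓ.Prime) (hℓM : ¬ ℓ ∣ M) (hℓp : ℓ ≠ p)
    (A : ValuationSubring Qb) (hA : A.LiesOverPrime ℓ) (s : GQ1) (hs : A.IsFrobeniusAt s ℓ) :
    ((epsD M p ι ψ s : Oˣ) : O)
      = (ℓ : O) * ((ψ (ZMod.unitOfCoprime ℓ ((Nat.Prime.coprime_iff_not_dvd hℓ).mpr hℓM)) : Oˣ) : O) := by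
  rw [epsD_apply, Fermat.Agent.S30.CycloChar.eps_frobenius p hℓ hℓp A hA s hs, map_natCast,
    Fermat.Agent.Lib.CycMod.cycMod_frobenius_unit M hℓ hℓM A hA s hs]

theorem epsD_inertia {q : ℕ} (hq : q.Prime) (hqM : ¬ q ∣ M) (hqp : q ≠ p)
    (P : ValuationSubring Qb) (hP : P.LiesOverPrime q) (σ : GQ1)
    (hσ : σ ∈ P.inertiaSubgroupIn ℚ) : epsD M p ι ψ σ = 1 := by
  apply Units.ext
  rw [epsD_apply, Fermat.Agent.S30.CycloChar.eps_inertia p hq hqp P hP σ hσ,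
    Fermat.Agent.Lib.CycMod.cycMod_inertia M hq hqM P hP σ hσ]
  simp

theorem epsD_complexConjugation (hψ : ψ (-1) = 1) : epsD M p ι ψ complexConjugation = -1 := by
  apply Units.ext
  rw [epsD_apply, Fermat.Agent.S30.CycloChar.eps_complexConjugation,
    Fermat.Agent.Lib.CycMod.cycMod_complexConjugation, hψ]
  simp

/-- If `g` acts on `ℚ(ζ_{p^n})` and on `ℚ(ζ_M)` as the `b`-th power of a Frobenius element `s`
over `ℓ ∤ M p`, then `epsD g ≡ (ℓ ψ(ℓ))^b` modulo `p ^ n`. -/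
theorem epsD_pow_frobenius (n : ℕ) {ℓ : ℕ} (hℓ : ℓ.Prime) (hℓM : ¬ ℓ ∣ M) (hℓp : ℓ ≠ p)
    (A : ValuationSubring Qb) (hA : A.LiesOverPrime ℓ) (s : GQ1) (hs : A.IsFrobeniusAt s ℓ)
    (g : GQ1) (b : ℕ)
    (h1 : ∀ x ∈ Fermat.Agent.S30.CycloChar.cycloField p n, g x = (s ^ b) x)
    (h2 : ∀ x ∈ Fermat.Agent.Lib.CycMod.cycloField M, g x = (s ^ b) x) :
    ((epsD M p ι ψ g : Oˣ) : O)
      - ((ℓ : O) * ((ψ (ZMod.unitOfCoprime ℓ ((Nat.Prime.coprime_iff_not_dvd hℓ).mpr hℓM)) : Oˣ) : O)) ^ b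
        ∈ Ideal.span {(p : O) ^ n} := by
  have e1 := Fermat.Agent.S30.CycloChar.epsO_pow_frobenius p ι n hℓ hℓp A hA s hs g b h1
  have e2 : cycMod M g
      = (ZMod.unitOfCoprime ℓ ((Nat.Prime.coprime_iff_not_dvd hℓ).mpr hℓM)) ^ b := by
    rw [Fermat.Agent.Lib.CycMod.cycMod_eq_of_eqOn M g (s ^ b) h2, map_pow,
      Fermat.Agent.Lib.CycMod.cycMod_frobenius_unit M hℓ hℓM A hA s hs]
  rw [Fermat.Agent.S30.CycloChar.epsO_apply] at e1
  rw [epsD_apply, e2, map_pow, Units.val_pow_eq_pow_val, mul_pow, ← sub_mul]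
  exact Ideal.mul_mem_right _ _ e1

/-- Continuity: `epsD σ ≡ 1` modulo `p ^ n` for `σ` fixing `ℚ(ζ_{p^n})` and `ℚ(ζ_M)`. -/
theorem epsD_sub_one_mem (n : ℕ) (σ : GQ1)
    (h1 : ∀ x ∈ Fermat.Agent.S30.CycloChar.cycloField p n, σ x = x)
    (h2 : ∀ x ∈ Fermat.Agent.Lib.CycMod.cycloField M, σ x = x) :
    ((epsD M p ι ψ σ : Oˣ) : O) - 1 ∈ Ideal.span {(p : O) ^ n} := by
  have e1 := Fermat.Agent.S30.CycloChar.epsO_sub_one_mem p ι n σ h1
  rw [Fermat.Agent.S30.CycloChar.epsO_apply] at e1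
  rw [epsD_apply, Fermat.Agent.Lib.CycMod.cycMod_eq_one_of_fix M σ h2, map_one, Units.val_one,
    mul_one]
  exact e1

end DetChar

/-! ### The Frobenius-power step -/

section Main

open Fermat.Agent.S30.QuadRel

variable {M p : ℕ} [NeZero M] [Fact p.Prime] {V : Type} [AddCommGroup V] [Module ℂ V]
  {T : ℕ → Module.End ℂ V} {Dm : (ZMod M)ˣ → Module.End ℂ V}

/-- **Frobenius-power step with diamonds**: modulo `𝔪 ^ n` the element `g` satisfies a quadratic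
relation on the eigen-lattice. -/
theorem exists_approx (hdens : DensityStatement) (D : ES1Data M p T Dm)
    (𝒪' : Type) [CommRing 𝒪'] [IsDomain 𝒪'] [IsDiscreteValuationRing 𝒪']
    (hp : (p : 𝒪') ∈ maximalIdeal 𝒪') (ι : ℤ_[p] →+* 𝒪')
    (lam : Idx M p → 𝒪') (ψ : (ZMod M)ˣ →* 𝒪'ˣ)
    (hψ : ∀ u : (ZMod M)ˣ, ((ψ u : 𝒪'ˣ) : 𝒪') = lam (Sum.inr u)) (g : GQ1) (n : ℕ) :
    ∃ a : 𝒪', ∀ m ∈ eigenLattice D lam,
      (ρR D ι g).mulVec ((ρR D ι g).mulVec m) - a • (ρR D ι g).mulVec m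
        + ((epsD M p ι ψ g : 𝒪'ˣ) : 𝒪') • m
          ∈ vecIdeal (maximalIdeal 𝒪' ^ n) (Fin D.r) := by
  classical
  obtain ⟨L1, hL1fin, hL1⟩ := D.cont n
  have := hL1fin
  have := Fermat.Agent.S30.CycloChar.finiteDimensional_cycloField p n
  have := Fermat.Agent.Lib.CycMod.finiteDimensional_cycloField M
  obtain ⟨ℓ, A, s, b, hℓ, hℓS, hA, hs, -, hsg⟩ :=
    hdens (L1 ⊔ Fermat.Agent.S30.CycloChar.cycloField p n ⊔ Fermat.Agent.Lib.CycMod.cycloField M)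
      (insert p M.primeFactors) g
  have hℓp : ℓ ≠ p := fun h => hℓS (by rw [h]; exact Finset.mem_insert_self p _)
  have hℓM : ¬ ℓ ∣ M := fun h =>
    hℓS (Finset.mem_insert_of_mem (Nat.mem_primeFactors.mpr ⟨hℓ, h, NeZero.ne M⟩))
  obtain ⟨u, hu⟩ : ∃ u : (ZMod M)ˣ,
      u = ZMod.unitOfCoprime ℓ ((Nat.Prime.coprime_iff_not_dvd hℓ).mpr hℓM) := ⟨_, rfl⟩
  have huℓ : (u : ZMod M) = (ℓ : ZMod M) := by rw [hu, ZMod.coe_unitOfCoprime]
  set J : Ideal 𝒪' := maximalIdeal 𝒪' ^ n with hJ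
  have hspanJ : Ideal.span {(p : 𝒪') ^ n} ≤ J := by
    rw [Ideal.span_singleton_le_iff_mem]
    exact Ideal.pow_mem_pow hp n
  have hιJ : ∀ x : ℤ_[p], x ∈ Ideal.span {(p : ℤ_[p]) ^ n} → ι x ∈ J := by
    intro x hx
    obtain ⟨y, rfl⟩ := Ideal.mem_span_singleton.mp hx
    rw [map_mul, map_pow, map_natCast]
    exact Ideal.mul_mem_right _ _ (Ideal.pow_mem_pow hp n)
  -- the three matrices
  obtain ⟨X, hX⟩ : ∃ X, X = ρR D ι g := ⟨_, rfl⟩
  obtain ⟨Ys, hYs⟩ : ∃ Ys, Ys = ρR D ι s := ⟨_, rfl⟩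
  obtain ⟨W, hW⟩ : ∃ W, W = ρR D ι (s ^ b) := ⟨_, rfl⟩
  have hWpow : W = Ys ^ b := by rw [hW, hYs, map_pow]
  -- `X - W` has entries in `J`
  have hZ : ∀ i j, (X - W) i j ∈ J := by
    intro i j
    obtain ⟨σ, hσ⟩ : ∃ σ : GQ1, σ = (s ^ b)⁻¹ * g := ⟨_, rfl⟩
    have hσfix : ∀ x ∈ L1, σ x = x := by
      intro x hx
      have hx' : x ∈ L1 ⊔ Fermat.Agent.S30.CycloChar.cycloField p n
          ⊔ Fermat.Agent.Lib.CycMod.cycloField M :=
        (le_sup_of_le_left le_sup_left : L1 ≤ _) hx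
      have h := hsg x hx'
      rw [hσ, AlgEquiv.mul_apply, ← h, ← AlgEquiv.mul_apply, inv_mul_cancel, AlgEquiv.one_apply]
    have hg : g = s ^ b * σ := by rw [hσ, mul_inv_cancel_left]
    have h1 := hL1 σ hσfix
    have h2 : D.ρ g - D.ρ (s ^ b) = D.ρ (s ^ b) * (D.ρ σ - 1) := by
      rw [mul_sub, mul_one, ← map_mul, ← hg]
    have h3 : (X - W) i j = ι ((D.ρ g - D.ρ (s ^ b)) i j) := by
      rw [hX, hW, ρR_apply, ρR_apply, Matrix.sub_apply, Matrix.sub_apply,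
        Matrix.map_apply, Matrix.map_apply, map_sub]
    rw [h3, h2]
    apply hιJ
    rw [Matrix.mul_apply]
    exact Ideal.sum_mem _ fun k _ => Ideal.mul_mem_left _ _ (h1 k j)
  -- the Eichler–Shimura relation for `Ys`
  have hes := D.es ℓ hℓ hℓM hℓp u huℓ A hA s hs
  obtain ⟨iℓ, hiℓ⟩ : ∃ iℓ : Idx M p, iℓ = Sum.inl ⟨ℓ, hℓ, hℓM, hℓp⟩ := ⟨_, rfl⟩
  have hesR : Ys * Ys - genR D 𝒪' iℓ * Ys + (ℓ : 𝒪') • genR D 𝒪' (Sum.inr u) = 0 := by
    have h := congrArg (ι.mapMatrix : Matrix (Fin D.r) (Fin D.r) ℤ_[p] →+* _) hes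
    rw [map_add, map_sub, map_mul, map_mul, map_zero] at h
    have h2 : ι.mapMatrix ((D.t ℓ).map (Int.castRingHom ℤ_[p])) = genR D 𝒪' iℓ := by
      rw [hiℓ]
      ext i j
      simp [genR, gen, Matrix.map_apply]
    have h3 : ι.mapMatrix (D.ρ s) = Ys := by rw [hYs]; rfl
    have h4 : ι.mapMatrix ((ℓ : ℤ_[p]) • (D.d u).map (Int.castRingHom ℤ_[p]))
        = (ℓ : 𝒪') • genR D 𝒪' (Sum.inr u) := by
      ext i j
      simp [genR, gen, Matrix.map_apply]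
    rw [h2, h3, h4] at h
    exact h
  -- restriction to the eigen-lattice
  obtain ⟨E, hE⟩ : ∃ E, E = eigenLattice D lam := ⟨_, rfl⟩
  have hst : ∀ v ∈ E, Ys.mulVecLin v ∈ E := by
    intro v hv
    rw [hE] at hv ⊢
    rw [hYs]
    exact eigenLattice_stable D ι lam s hv
  obtain ⟨x, hx⟩ : ∃ x : Module.End 𝒪' E, x = Ys.mulVecLin.restrict hst := ⟨_, rfl⟩
  obtain ⟨c, hc⟩ : ∃ c : 𝒪', c = lam iℓ := ⟨_, rfl⟩
  obtain ⟨dd, hdd⟩ : ∃ dd : 𝒪', dd = (ℓ : 𝒪') * lam (Sum.inr u) := ⟨_, rfl⟩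
  have hxm : ∀ m : E, ((x m : E) : Fin D.r → 𝒪') = Ys.mulVec m := by
    intro m
    rw [hx]
    rfl
  have hrel : x * x - c • x + dd • (1 : Module.End 𝒪' E) = 0 := by
    refine LinearMap.ext fun m => Subtype.ext ?_
    have hmE : (m : Fin D.r → 𝒪') ∈ eigenLattice D lam := by
      rw [← hE]
      exact m.2
    have hm' : Ys.mulVec (m : Fin D.r → 𝒪') ∈ eigenLattice D lam := by
      have h := hst m m.2
      rw [← hE]
      exact h
    have heig : (genR D 𝒪' iℓ).mulVec (Ys.mulVec (m : Fin D.r → 𝒪'))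
        = c • Ys.mulVec (m : Fin D.r → 𝒪') := by
      rw [hc]
      exact hm' iℓ
    have heig2 : (genR D 𝒪' (Sum.inr u)).mulVec (m : Fin D.r → 𝒪')
        = lam (Sum.inr u) • (m : Fin D.r → 𝒪') := hmE (Sum.inr u)
    have h := congrArg (fun N : Matrix (Fin D.r) (Fin D.r) 𝒪' => N.mulVec (m : Fin D.r → 𝒪')) hesR
    simp only [Matrix.add_mulVec, Matrix.sub_mulVec, Matrix.zero_mulVec, ← Matrix.mulVec_mulVec,
      Matrix.smul_mulVec] at h
    rw [heig, heig2, smul_smul, ← hdd] at h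
    simp only [LinearMap.add_apply, LinearMap.sub_apply, LinearMap.smul_apply,
      Module.End.mul_apply, Module.End.one_apply, LinearMap.zero_apply, Submodule.coe_add,
      Submodule.coe_sub, Submodule.coe_smul, ZeroMemClass.coe_zero, hxm]
    exact h
  -- Lucas
  have hl := Fermat.Agent.S30.CycloChar.lucas_algebra x c dd hrel b
  obtain ⟨a, ha⟩ : ∃ a : 𝒪', a = Fermat.Agent.S30.CycloChar.lucasS c dd b := ⟨_, rfl⟩
  rw [← ha] at hl
  have hxb : ∀ m : E, (((x ^ b) m : E) : Fin D.r → 𝒪') = W.mulVec m := by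
    intro m
    rw [hx, restrict_pow_apply, hWpow]
  have hbr : ∀ m : E, W.mulVec (W.mulVec (m : Fin D.r → 𝒪')) - a • W.mulVec (m : Fin D.r → 𝒪')
      + dd ^ b • (m : Fin D.r → 𝒪') = 0 := by
    intro m
    have h := congrArg (fun f : Module.End 𝒪' E => ((f m : E) : Fin D.r → 𝒪')) hl
    simp only [LinearMap.add_apply, LinearMap.sub_apply, LinearMap.smul_apply,
      Module.End.mul_apply, Module.End.one_apply, LinearMap.zero_apply, Submodule.coe_add,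
      Submodule.coe_sub, Submodule.coe_smul, ZeroMemClass.coe_zero, hxb] at h
    exact h
  -- the determinant character
  have heJ : ((epsD M p ι ψ g : 𝒪'ˣ) : 𝒪') - dd ^ b ∈ J := by
    have h := epsD_pow_frobenius M p ι ψ n hℓ hℓM hℓp A hA s hs g b
      (fun x hx => (hsg x ((le_sup_of_le_left le_sup_right :
        Fermat.Agent.S30.CycloChar.cycloField p n ≤ _) hx)).symm)
      (fun x hx => (hsg x ((le_sup_right :
        Fermat.Agent.Lib.CycMod.cycloField M ≤ _) hx)).symm)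
    rw [← hu, hψ u, ← hdd] at h
    exact hspanJ h
  -- assembly
  refine ⟨a, fun m hm => ?_⟩
  rw [← hX]
  obtain ⟨e, he⟩ : ∃ e : 𝒪', e = ((epsD M p ι ψ g : 𝒪'ˣ) : 𝒪') := ⟨_, rfl⟩
  rw [← he] at heJ ⊢
  obtain ⟨Z, hZdef⟩ : ∃ Z, Z = X - W := ⟨_, rfl⟩
  rw [← hZdef] at hZ
  have hXWZ : X = W + Z := by rw [hZdef]; abel
  have e1 : X.mulVec m = W.mulVec m + Z.mulVec m := by rw [hXWZ, Matrix.add_mulVec]
  have e2 : X.mulVec (X.mulVec m) =
      W.mulVec (W.mulVec m) + W.mulVec (Z.mulVec m) + Z.mulVec (X.mulVec m) := by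
    conv_lhs => rw [hXWZ, Matrix.add_mulVec]
    rw [← hXWZ, e1, Matrix.mulVec_add]
  have hm' : m ∈ E := by rw [hE]; exact hm
  have h0 := hbr ⟨m, hm'⟩
  simp only at h0
  have key : X.mulVec (X.mulVec m) - a • X.mulVec m + e • m =
      W.mulVec (Z.mulVec m) + Z.mulVec (X.mulVec m) - a • Z.mulVec m
        + (e - dd ^ b) • m := by
    have h4 : X.mulVec (X.mulVec m) - a • X.mulVec m + e • m =
        (W.mulVec (W.mulVec m) - a • W.mulVec m + dd ^ b • m)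
          + (W.mulVec (Z.mulVec m) + Z.mulVec (X.mulVec m) - a • Z.mulVec m
            + (e - dd ^ b) • m) := by
      have e1' : a • X.mulVec m = a • W.mulVec m + a • Z.mulVec m := by rw [e1, smul_add]
      rw [e2, e1']
      module
    rw [h4, h0, zero_add]
  rw [key]
  refine Submodule.add_mem _ (Submodule.sub_mem _ (Submodule.add_mem _ ?_ ?_) ?_) ?_
  · exact mulVec_mem_of_mem W (mulVec_mem_of_entries hZ m)
  · exact mulVec_mem_of_entries hZ _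
  · exact Submodule.smul_mem _ a (mulVec_mem_of_entries hZ m)
  · exact smul_mem_of_mem heJ m

/-- **Engine.QuadRel with diamonds**: every `g : G_ℚ` satisfies a quadratic relation on the
eigen-lattice of `lam`, with constant term the determinant character `epsD`. -/
theorem exists_quadratic_relation (hdens : DensityStatement) (D : ES1Data M p T Dm)
    (𝒪' : Type) [CommRing 𝒪'] [IsDomain 𝒪'] [IsDiscreteValuationRing 𝒪']
    [IsAdicComplete (maximalIdeal 𝒪') 𝒪']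
    (hp : (p : 𝒪') ∈ maximalIdeal 𝒪') (ι : ℤ_[p] →+* 𝒪')
    (lam : Idx M p → 𝒪') (ψ : (ZMod M)ˣ →* 𝒪'ˣ)
    (hψ : ∀ u : (ZMod M)ˣ, ((ψ u : 𝒪'ˣ) : 𝒪') = lam (Sum.inr u)) (g : GQ1) :
    ∃ a : 𝒪', ∀ m ∈ eigenLattice D lam,
      (ρR D ι g).mulVec ((ρR D ι g).mulVec m) - a • (ρR D ι g).mulVec m
        + ((epsD M p ι ψ g : 𝒪'ˣ) : 𝒪') • m = 0 := by
  obtain ⟨a, ha⟩ := exists_limit (O := 𝒪') (T := ↥(eigenLattice D lam) × Fin D.r)
    (fun t => ((ρR D ι g).mulVec (t.1 : Fin D.r → 𝒪')) t.2)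
    (fun t => ((ρR D ι g).mulVec ((ρR D ι g).mulVec (t.1 : Fin D.r → 𝒪'))) t.2
      + ((epsD M p ι ψ g : 𝒪'ˣ) : 𝒪') * (t.1 : Fin D.r → 𝒪') t.2)
    (by
      intro n
      obtain ⟨a, ha⟩ := exists_approx hdens D 𝒪' hp ι lam ψ hψ g n
      refine ⟨a, fun t => ?_⟩
      have h := mem_vecIdeal.mp (ha t.1 t.1.2) t.2
      simp only [Pi.add_apply, Pi.sub_apply, Pi.smul_apply, smul_eq_mul] at h
      have h2 : ((ρR D ι g).mulVec ((ρR D ι g).mulVec (t.1 : Fin D.r → 𝒪'))) t.2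
          + ((epsD M p ι ψ g : 𝒪'ˣ) : 𝒪') * (t.1 : Fin D.r → 𝒪') t.2
          - a * ((ρR D ι g).mulVec (t.1 : Fin D.r → 𝒪')) t.2
          = ((ρR D ι g).mulVec ((ρR D ι g).mulVec (t.1 : Fin D.r → 𝒪'))) t.2
          - a * ((ρR D ι g).mulVec (t.1 : Fin D.r → 𝒪')) t.2
          + ((epsD M p ι ψ g : 𝒪'ˣ) : 𝒪') * (t.1 : Fin D.r → 𝒪') t.2 := by ring
      rw [h2]
      exact h)
  refine ⟨a, fun m hm => ?_⟩
  funext i
  have h := ha (⟨m, hm⟩, i)
  simp only [Pi.add_apply, Pi.sub_apply, Pi.smul_apply, smul_eq_mul, Pi.zero_apply]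
  simp only at h
  linear_combination h

end Main

end Fermat.Agent.S48.G1.ResEngine
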